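/-
P-SS (helper26), row 962 SS-HM-DER, part 1: the geometric input over `ℚ̄`.

* `derb_exists_valDiff` : at every non-cuspidal place `w` of `F_N = ℚ̄(X₀(N))` there is an
  embedding of `F_N` into a valued differential field whose valuation is a positive multiple of
  `ord_w` (from the analytic data of P-GENUS + local counting);
* `derb_ord_nonneg_of_der_eq` : in such a field, if `h - a` is a uniformiser at `w`, `f` is
  regular at `w` and `der f = θ · der h`, then `θ` is regular at `w`;
* `derb_exists_h4Bar_value` : at a non-cuspidal place the Hauptmodul `H` of level 4 has a value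
  `a` and `H - a` is a uniformiser.
-/
import Fermat.Agent.H17.ESD.BranchJ
import Fermat.Agent.H8.SS.Haupt4Branch
import Fermat.Agent.H8.SS.PoleOrderPlace
import Fermat.Agent.H85.LocalCounting
import Fermat.Agent.H29.FundamentalIdentity

set_option autoImplicit false
set_option synthInstance.maxHeartbeats 400000
set_option maxHeartbeats 400000
set_option linter.unusedSectionVars false

noncomputable section

open AlgebraicCurve IntermediateField Polynomial
open scoped MatrixGroups

namespace Fermat.Agent.H26.SS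

open Fermat.Agent.H23 Fermat.Agent.H27.ESD Fermat.Agent.H17.ESD Fermat.Agent.H8.SS

/-! ### valued differential fields -/

section generic

variable {K F : Type} [Field K] [Field F] [Algebra K F]

/-- **Regularity of the derivative.**  `σ : F → M` an embedding into a valued differential field
with `val ∘ σ = m · ord_w`; if `h - a` has order one at `w`, `f` is regular at `w` and
`der (σ f) = σ θ · der (σ h)` then `θ` is regular at `w`. -/
theorem derb_ord_nonneg_of_der_eq {M : Type} [Field M] (val : AddValuation M (WithTop ℤ))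
    (der : M → M) (der_add : ∀ a b : M, der (a + b) = der a + der b)
    (val_der : ∀ (a : M) (n : ℤ), n ≠ 0 → val a = (n : WithTop ℤ) →
      val (der a) = ((n - 1 : ℤ) : WithTop ℤ))
    (σ : F →+* M) (der_const : ∀ c : K, der (σ (algebraMap K F c)) = 0)
    (w : Place K F) (hdeg : w.deg = 1) (m : ℕ) (hm : 0 < m)
    (hval : ∀ f : F, f ≠ 0 → val (σ f) = (((m : ℤ) * w.ord f : ℤ) : WithTop ℤ))
    (h f θ : F) (a : K) (hh : w.ord (h - algebraMap K F a) = 1) (hf : 0 ≤ w.ord f)
    (hθ : der (σ f) = σ θ * der (σ h)) : 0 ≤ w.ord θ := by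
  have hmZ : (m : ℤ) ≠ 0 := by exact_mod_cast hm.ne'
  have der_zero : der 0 = 0 := by
    have := der_add 0 0
    rw [add_zero] at this
    exact left_eq_add.mp this
  have der_sub_const : ∀ (z : F) (c : K), der (σ (z - algebraMap K F c)) = der (σ z) := by
    intro z c
    have h1 : σ z = σ (z - algebraMap K F c) + σ (algebraMap K F c) := by
      rw [← map_add, sub_add_cancel]
    rw [h1, der_add, der_const, add_zero]
  -- the coordinate
  have hh0 : h - algebraMap K F a ≠ 0 := by
    intro h0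
    rw [h0, Place.ord_zero] at hh
    exact zero_ne_one hh
  have hvh : val (der (σ h)) = (((m : ℤ) - 1 : ℤ) : WithTop ℤ) := by
    have h1 := val_der (σ (h - algebraMap K F a)) (m : ℤ) hmZ (by
      rw [hval _ hh0, hh, mul_one])
    rwa [der_sub_const] at h1
  have hdh : der (σ h) ≠ 0 := by
    intro h0
    rw [h0, AddValuation.map_zero] at hvh
    exact WithTop.top_ne_coe hvh
  -- the function
  obtain ⟨c, hc | hc⟩ := exists_const_ord_sub_pos w hdeg (Or.inr hf)
  · -- `f` is constant
    have h1 : der (σ f) = 0 := by rw [hc, der_const]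
    rw [h1] at hθ
    have h2 : σ θ = 0 := by
      rcases mul_eq_zero.mp hθ.symm with h2 | h2
      · exact h2
      · exact absurd h2 hdh
    have h3 : θ = 0 := (map_eq_zero σ).mp h2
    rw [h3, Place.ord_zero]
  · have hfc0 : f - algebraMap K F c ≠ 0 := by
      intro h0
      rw [h0, Place.ord_zero] at hc
      exact lt_irrefl _ hc
    have hk : (m : ℤ) * w.ord (f - algebraMap K F c) ≠ 0 := mul_ne_zero hmZ hc.ne'
    have hvf : val (der (σ f)) =
        (((m : ℤ) * w.ord (f - algebraMap K F c) - 1 : ℤ) : WithTop ℤ) := by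
      have h1 := val_der (σ (f - algebraMap K F c)) _ hk (hval _ hfc0)
      rwa [der_sub_const] at h1
    have hθ0 : θ ≠ 0 := by
      rintro rfl
      rw [map_zero, zero_mul] at hθ
      rw [hθ, AddValuation.map_zero] at hvf
      exact WithTop.top_ne_coe hvf
    have h2 : val (der (σ f)) = val (σ θ) + val (der (σ h)) := by
      rw [hθ, AddValuation.map_mul]
    rw [hvf, hvh, hval θ hθ0, ← WithTop.coe_add, WithTop.coe_inj] at h2
    have h3 : (m : ℤ) * w.ord θ = (m : ℤ) * (w.ord (f - algebraMap K F c) - 1) := by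
      linarith
    have h4 := mul_left_cancel₀ hmZ h3
    omega

/-- a relation `j · P₁(z) = P₂(z)` with `P₁(a) = 0 ≠ P₂(a)` forces a pole of `j` at every place
where `z ≡ a`. -/
theorem derb_ord_neg_of_rel (v : Place K F) {z j : F} {a : K}
    (hz : 0 < v.ord (z - algebraMap K F a)) (P₁ P₂ : K[X])
    (hrel : j * aeval z P₁ = aeval z P₂) (h1 : P₁.eval a = 0) (h2 : P₂.eval a ≠ 0)
    (hP1 : aeval z P₁ ≠ 0) : v.ord j < 0 := by
  obtain ⟨hP2ne, hP2ord⟩ := ord_aeval_of_eval_ne_zero v hz P₂ h2
  obtain ⟨Q, hQ⟩ := aeval_eq_add_mul (F := F) P₁ a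
  have hzmem := mem_of_ord_sub_pos v hz
  have hQz := hQ z
  rw [h1, map_zero, zero_add] at hQz
  have hza0 : z - algebraMap K F a ≠ 0 := by
    intro h0
    rw [h0, Place.ord_zero] at hz
    exact lt_irrefl _ hz
  have hQ0 : aeval z Q ≠ 0 := by
    intro h0
    rw [hQz, h0, mul_zero] at hP1
    exact hP1 rfl
  have hQord : 0 ≤ v.ord (aeval z Q) :=
    ord_nonneg_of_mem v (aeval_mem_valuationSubring v hzmem Q)
  have hP1ord : 0 < v.ord (aeval z P₁) := by
    rw [hQz, Place.ord_mul v hza0 hQ0]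
    omega
  have hj0 : j ≠ 0 := by
    rintro rfl
    rw [zero_mul] at hrel
    exact hP2ne hrel.symm
  have h3 := congrArg v.ord hrel
  rw [Place.ord_mul v hj0 hP1, hP2ord] at h3
  omega

end generic

/-! ### the modular function field -/

section modular

variable (N : ℕ) [NeZero N]

local notation "Kbar" => AlgebraicClosure ℚ
set_option quotPrecheck false in
local notation "FN" => ↥(ModularCurve.modularFunctionFieldBar N)

/-- all places of `F_N` have degree one -/
theorem derb_deg_one (w : Place Kbar FN) : w.deg = 1 :=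
  (Fermat.Agent.H29.fundamentalIdentity Kbar FN (jBar N) (jBar_transcendental N)
    (degreeStatement_holds N).2.1).1 w

/-- the embedding into the valued differential field of an analytic datum at a zero of `y` -/
theorem derb_exists_of_analyticDatum {y : FN} {g : SL(2, ℤ)} {e₀ : ℕ}
    (A : AnalyticDatum N y g e₀) (he : 0 < e₀) (hy : Transcendental Kbar y)
    (hyx : Kbar⟮y⟯ = Kbar⟮jBar N⟯) (v : Place Kbar FN) (hv : 0 < v.ord y) :
    ∃ (σ : FN →+* A.M) (m : ℕ), 0 < m ∧
      (∀ c : Kbar, A.der (σ (algebraMap Kbar FN c)) = 0) ∧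
      ∀ f : FN, f ≠ 0 → A.val (σ f) = (((m : ℤ) * v.ord f : ℤ) : WithTop ℤ) := by
  classical
  have := finite_cosets N
  let _ : Fintype (SL(2, ℤ) ⧸ CongruenceSubgroup.Gamma0 N) := Fintype.ofFinite _
  obtain ⟨htr, hfd, hle⟩ := degreeStatement_holds N
  have hfiny : FiniteDimensional Kbar⟮y⟯ FN := by rw [hyx]; exact hfd
  obtain ⟨hdeg, hVfin, hsum⟩ := Fermat.Agent.H29.fundamentalIdentity Kbar FN y hy hfiny
  have hsum' : ∑ᶠ v ∈ {v : Place Kbar FN | 0 < v.ord y}, v.ord y =
      (Fintype.card (A.toLocalDatum he).I : ℤ) := by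
    rw [hsum, hyx, finrank_eq_card N, Nat.card_eq_fintype_card]
    rfl
  obtain ⟨hind, -⟩ := Fermat.Agent.H85.localCounting Kbar FN y (A.toLocalDatum he) hdeg hVfin hsum'
  obtain ⟨i, m, hm, hσ⟩ := hind v hv
  exact ⟨(A.toLocalDatum he).σ i, m, hm, (A.toLocalDatum he).der_const i, hσ⟩

/-- **The valued differential field at a non-cuspidal place.** -/
theorem derb_exists_valDiff (w : Place Kbar FN) (hw : 0 ≤ w.ord (jBar N)) :
    ∃ (M : Type) (_ : Field M) (val : AddValuation M (WithTop ℤ)) (der : M → M)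
      (σ : FN →+* M) (m : ℕ),
      (∀ a b : M, der (a + b) = der a + der b) ∧
      (∀ a b : M, der (a * b) = a * der b + der a * b) ∧
      (∀ (a : M) (n : ℤ), n ≠ 0 → val a = (n : WithTop ℤ) →
        val (der a) = ((n - 1 : ℤ) : WithTop ℤ)) ∧
      0 < m ∧ (∀ c : Kbar, der (σ (algebraMap Kbar FN c)) = 0) ∧
      ∀ f : FN, f ≠ 0 → val (σ f) = (((m : ℤ) * w.ord f : ℤ) : WithTop ℤ) := by
  obtain ⟨a, ha | ha⟩ := exists_const_ord_sub_pos w (derb_deg_one N w) (Or.inr hw)
  · exact absurd (ha ▸ isAlgebraic_algebraMap a) (jBar_transcendental N)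
  obtain ⟨hgen, ⟨A0⟩, ⟨A1⟩, -⟩ := analyticStatement_holds N
  by_cases h0 : a = 0
  · subst h0
    obtain ⟨σ, m, hm, hc, hσ⟩ := derb_exists_of_analyticDatum N A0 (by norm_num)
      (transcendental_sub_const (jBar_transcendental N) 0) (adjoin_sub_const _ _) w ha
    exact ⟨A0.M, A0.fieldM, A0.val, A0.der, σ, m, A0.der_add, A0.der_mul, A0.val_der, hm, hc, hσ⟩
  by_cases h1 : a = 1728
  · subst h1
    obtain ⟨σ, m, hm, hc, hσ⟩ := derb_exists_of_analyticDatum N A1 (by norm_num)
      (transcendental_sub_const (jBar_transcendental N) 1728) (adjoin_sub_const _ _) w ha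
    exact ⟨A1.M, A1.fieldM, A1.val, A1.der, σ, m, A1.der_add, A1.der_mul, A1.val_der, hm, hc, hσ⟩
  · obtain ⟨A⟩ := hgen a h0 h1
    obtain ⟨σ, m, hm, hc, hσ⟩ := derb_exists_of_analyticDatum N A one_pos
      (transcendental_sub_const (jBar_transcendental N) a) (adjoin_sub_const _ _) w ha
    exact ⟨A.M, A.fieldM, A.val, A.der, σ, m, A.der_add, A.der_mul, A.val_der, hm, hc, hσ⟩

/-- the relation `j H⁴ (H + 16) = (H² + 256 H + 4096)³` in polynomial form -/
theorem derb_h4Bar_rel (hN : 4 ∣ N) :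
    jBar N * aeval (h4Bar N hN) (X ^ 4 * (X + C 16) : Kbar[X]) =
      aeval (h4Bar N hN) ((X ^ 2 + C 256 * X + C 4096) ^ 3 : Kbar[X]) := by
  simp only [map_mul, map_add, map_pow, aeval_X, map_ofNat]
  rw [← h4Bar_j N hN]
  ring

/-- the same relation in the variable `u = 1 / H` -/
theorem derb_h4Bar_rel_inv (hN : 4 ∣ N) :
    jBar N * aeval (h4Bar N hN)⁻¹ (X * (1 + C 16 * X) : Kbar[X]) =
      aeval (h4Bar N hN)⁻¹ ((1 + C 256 * X + C 4096 * X ^ 2) ^ 3 : Kbar[X]) := by
  simp only [map_mul, map_add, map_pow, map_one, aeval_X, map_ofNat]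
  have h0 := h4Bar_ne_zero N hN
  have hrel := h4Bar_j N hN
  field_simp
  linear_combination hrel

/-- at a non-cuspidal place the Hauptmodul `H` has no pole -/
theorem derb_ord_h4Bar_nonneg (hN : 4 ∣ N) (w : Place Kbar FN) (hj : 0 ≤ w.ord (jBar N)) :
    0 ≤ w.ord (h4Bar N hN) := by
  by_contra hneg
  rw [not_le] at hneg
  have hh0 := h4Bar_ne_zero N hN
  have hu : 0 < w.ord ((h4Bar N hN)⁻¹ - algebraMap Kbar FN 0) := by
    rw [map_zero, sub_zero, Place.ord_inv]
    omega
  have hP1 : aeval (h4Bar N hN)⁻¹ (X * (1 + C 16 * X) : Kbar[X]) ≠ 0 := by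
    simp only [map_mul, map_add, map_one, aeval_X, map_ofNat]
    refine mul_ne_zero (inv_ne_zero hh0) ?_
    have h16 := h4Bar_add_ne_zero N hN
    have e : (1 : FN) + 16 * (h4Bar N hN)⁻¹ = (h4Bar N hN + 16) * (h4Bar N hN)⁻¹ := by
      field_simp
    rw [e]
    exact mul_ne_zero h16 (inv_ne_zero hh0)
  have h := derb_ord_neg_of_rel w hu _ _ (derb_h4Bar_rel_inv N hN) (by simp) (by simp) hP1
  omega

/-- **at a non-cuspidal place, `H` has a value `a` and `H - a` is a uniformiser** -/
theorem derb_exists_h4Bar_value (hN : 4 ∣ N) (w : Place Kbar FN) (hj : 0 ≤ w.ord (jBar N)) :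
    ∃ a : Kbar, w.ord (h4Bar N hN - algebraMap Kbar FN a) = 1 := by
  have hord := derb_ord_h4Bar_nonneg N hN w hj
  obtain ⟨a, ha | ha⟩ := exists_const_ord_sub_pos w (derb_deg_one N w) (Or.inr hord)
  · exact absurd (ha ▸ isAlgebraic_algebraMap a) (h4Bar_transcendental N hN)
  have hP1 : aeval (h4Bar N hN) (X ^ 4 * (X + C 16) : Kbar[X]) ≠ 0 := by
    simp only [map_mul, map_add, map_pow, aeval_X, map_ofNat]
    exact mul_ne_zero (pow_ne_zero 4 (h4Bar_ne_zero N hN)) (h4Bar_add_ne_zero N hN)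
  have hne : ∀ b : Kbar, a = b → (X ^ 4 * (X + C 16) : Kbar[X]).eval b = 0 →
      ((X ^ 2 + C 256 * X + C 4096) ^ 3 : Kbar[X]).eval b ≠ 0 → False := by
    rintro b rfl h1 h2
    have h := derb_ord_neg_of_rel w ha _ _ (derb_h4Bar_rel N hN) h1 h2 hP1
    omega
  refine ⟨a, ord_h4Bar_sub_eq_one N hN w ?_ ?_ ha⟩
  · intro h0
    refine hne 0 h0 (by simp) ?_
    simp only [eval_pow, eval_add, eval_mul, eval_C, eval_X]
    norm_num
  · intro h0
    refine hne (-16) h0 (by simp) ?_
    simp only [eval_pow, eval_add, eval_mul, eval_C, eval_X]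
    norm_num

end modular

end Fermat.Agent.H26.SS
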