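/-
P-SS (helper26), row 962 SS-HM-DER, part 2: `modelDerivRegular`.

`d/dH` preserves the valuation rings of the finite places of the chart `j` of the model field of
level `N`, `4 ∣ N`: if `θ · ϑ(H) = ϑ(f)` on `q`-expansions (`ϑ = t d/dt`) and `f ∈ V` then
`θ ∈ V`.

Proof: the Kähler module of `E / K₁` is spanned by `dH`, and the derivation `ϑ` shows
`df = θ dH`; a place `w` of `ℚ̄(X₀(N))` above `V` is not a cusp, so `H - H(w)` is a uniformiser
at `w`; the embedding of `ℚ̄(X₀(N))` into the valued differential field of the analytic datum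
at `j(w)` turns `df = θ dH` into `der f = θ · der H`, whence `ord_w θ ≥ 0`.
-/
import Fermat.Agent.H26.SS.DerivBar
import Fermat.Agent.H8.SS.CrossInterfaces
import Fermat.Agent.H2.KLBRModel
import Fermat.Agent.H69.Kaehler

set_option autoImplicit false
set_option synthInstance.maxHeartbeats 400000
set_option maxHeartbeats 1000000
set_option linter.unusedSectionVars false
set_option linter.style.haveILetI false

noncomputable section

open AlgebraicCurve IntermediateField Polynomial ModularCurve KaehlerDifferential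

namespace Fermat.Agent.H26.SS

open Fermat.Agent.H23 Fermat.Agent.H22.KL Fermat.Agent.H8.SS

/-! ### derivations -/

section derivations

/-- a derivation of a valued differential field pulled back along an embedding respects
relations between differentials -/
theorem derb_der_eq_of_D_eq {K F : Type} [Field K] [Field F] [Algebra K F] {M : Type}
    [Field M] (der : M → M) (der_add : ∀ a b : M, der (a + b) = der a + der b)
    (der_mul : ∀ a b : M, der (a * b) = a * der b + der a * b)
    (s : F →+* M) (der_const : ∀ c : K, der (s (algebraMap K F c)) = 0)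
    (f h θ : F) (hD : D K F f = θ • D K F h) : der (s f) = s θ * der (s h) := by
  classical
  let algFM : Algebra F M := s.toAlgebra
  let algKM : Algebra K M := (s.comp (algebraMap K F)).toAlgebra
  have : IsScalarTower K F M := IsScalarTower.of_algebraMap_eq (fun _ => rfl)
  have hsmulF : ∀ (a : F) (x : M), a • x = s a * x := fun a x => rfl
  have hsmulK : ∀ (c : K) (x : M), c • x = s (algebraMap K F c) * x := fun c x => rfl
  let δlin : F →ₗ[K] M :=
    { toFun := fun f => der (s f)
      map_add' := fun a b => by rw [map_add, der_add]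
      map_smul' := fun c f => by
        rw [Algebra.smul_def, map_mul, der_mul, der_const, zero_mul, add_zero, RingHom.id_apply,
          hsmulK] }
  let δ : Derivation K F M := Derivation.mk' δlin (fun a b => by
    change der (s (a * b)) = a • der (s b) + b • der (s a)
    rw [map_mul, der_mul, hsmulF, hsmulF, mul_comm (der (s a)) (s b)])
  have hδ : ∀ f : F, δ f = der (s f) := fun f => rfl
  let L : Ω[F⁄K] →ₗ[F] M := δ.liftKaehlerDifferential
  have hL : ∀ f : F, L (D K F f) = der (s f) := fun f => by
    rw [Derivation.liftKaehlerDifferential_comp_D, hδ]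
  rw [← hL f, hD, map_smul, hL, hsmulF]

variable {K₁ : Type} [Field K₁]

/-- `ϑ` kills the constants -/
theorem derb_theta_algebraMap (c : K₁) :
    theta (algebraMap K₁ (LaurentSeries K₁) c) = 0 := by
  rw [algebraMap_laurentSeries_eq_single, theta_single, Int.cast_zero, zero_mul,
    HahnSeries.single_eq_zero]

/-- **`df = θ dH`** from the `q`-expansion identity `θ · ϑ(H) = ϑ(f)`. -/
theorem derb_D_eq_of_theta [CharZero K₁] (E : IntermediateField K₁ (LaurentSeries K₁))
    (x : ↥E) (hfin : FiniteDimensional K₁⟮x⟯ ↥E) (H f θ : ↥E) (hH : Transcendental K₁ H)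
    (hθH : theta (H : LaurentSeries K₁) ≠ 0)
    (hθ : (θ : LaurentSeries K₁) * theta (H : LaurentSeries K₁) =
      theta (f : LaurentSeries K₁)) :
    D K₁ ↥E f = θ • D K₁ ↥E H := by
  obtain ⟨θ', hθ'⟩ := Fermat.Agent.H69.exists_eq_smul_D_of_transcendental x hfin H hH
    (D K₁ ↥E f)
  have h1 : theta (f : LaurentSeries K₁) =
      (θ' : LaurentSeries K₁) * theta (H : LaurentSeries K₁) :=
    derb_der_eq_of_D_eq (K := K₁) (F := ↥E) (M := LaurentSeries K₁)
      (fun y => theta y) (fun a b => map_add theta a b)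
      (fun a b => by rw [theta_mul]; ring)
      (algebraMap ↥E (LaurentSeries K₁))
      (fun c => by
        rw [← IsScalarTower.algebraMap_apply K₁ ↥E (LaurentSeries K₁)]
        exact derb_theta_algebraMap c)
      f H θ' hθ'
  have h2 : (θ : LaurentSeries K₁) * theta (H : LaurentSeries K₁) =
      (θ' : LaurentSeries K₁) * theta (H : LaurentSeries K₁) := by
    rw [hθ, h1]
  have h3 : (θ : LaurentSeries K₁) = (θ' : LaurentSeries K₁) := mul_right_cancel₀ hθH h2
  have h4 : θ = θ' := Subtype.ext h3
  rw [h4]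
  exact hθ'

end derivations

/-! ### the main theorem -/

section main

variable (N : ℕ) [NeZero N]

/-- `H` is transcendental over the constants -/
theorem derb_transcendental_H (K₁ : Type) [Field K₁] [Algebra ℚ K₁] (H : ModelField K₁ N)
    (hH : (H : LaurentSeries K₁) = h4S K₁) : Transcendental K₁ H := by
  intro h
  have h1 : IsAlgebraic K₁ (algebraMap (ModelField K₁ N) (LaurentSeries K₁) H) :=
    (isAlgebraic_algebraMap_iff
      (algebraMap (ModelField K₁ N) (LaurentSeries K₁)).injective).mpr h
  have h2 : IsAlgebraic K₁ (h4S K₁) := by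
    rw [← hH]
    exact h1
  exact (transcendental_iff_injective.mpr (aeval_h4S_injective K₁)) h2

/-- `ϑ(H) ≠ 0` -/
theorem derb_theta_h4S_ne_zero (K₁ : Type) [Field K₁] : theta (h4S K₁) ≠ 0 := by
  intro h0
  have h1 := congrArg (fun y : LaurentSeries K₁ => y.coeff (-1)) h0
  simp only [theta_coeff, h4S_coeff_neg_one, HahnSeries.coeff_zero, mul_one] at h1
  have h2 : ((-1 : ℤ) : K₁) = -1 := by push_cast; rfl
  rw [h2] at h1
  exact neg_ne_zero.mpr one_ne_zero h1

/-- **HM-DER**: `d/dH` preserves the valuation rings of the finite places of the chart `j` of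
the model field of level `N`, `4 ∣ N`. -/
theorem modelDerivRegular (h4 : 4 ∣ N) : ModelDerivRegularStatement N := by
  intro K₁ _ _ _ A₀ _ _ _ _ _ _ _ x H f θ hx hH hθ V hV hfV
  -- an embedding of `K₁` into `ℚ̄`
  haveI : Algebra.IsAlgebraic ℚ K₁ := Algebra.IsAlgebraic.of_finite ℚ K₁
  let φ : K₁ →ₐ[ℚ] AlgebraicClosure ℚ := IsAlgClosed.lift
  letI algK : Algebra K₁ (AlgebraicClosure ℚ) := φ.toRingHom.toAlgebra
  haveI tow : IsScalarTower ℚ K₁ (AlgebraicClosure ℚ) :=
    IsScalarTower.of_algebraMap_eq (fun a => (φ.commutes a).symm)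
  haveI : Algebra.IsAlgebraic ℚ (AlgebraicClosure ℚ) := AlgebraicClosure.isAlgebraic ℚ
  haveI : Algebra.IsAlgebraic K₁ (AlgebraicClosure ℚ) :=
    Algebra.IsAlgebraic.tower_top (K := ℚ) K₁
  haveI : CharZero K₁ := algebraRat.charZero K₁
  -- the comparison map
  let ι : ModelField K₁ N →+* ↥(modularFunctionFieldBar N) :=
    Fermat.Agent.H93.KL.klBc φ.toRingHom (modularFunctionFieldFull N)
  have hι : ∀ a : K₁, ι (algebraMap K₁ (ModelField K₁ N) a) =
      algebraMap (AlgebraicClosure ℚ) ↥(modularFunctionFieldBar N)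
        (algebraMap K₁ (AlgebraicClosure ℚ) a) := fun a =>
    Fermat.Agent.H73.KLDesc.klBc_algebraMap φ.toRingHom (modularFunctionFieldFull N) a
  have hxj : ι x = jBar N := by
    apply Subtype.ext
    show coeffMap φ.toRingHom (x : LaurentSeries K₁) = coeffEmb (AlgebraicClosure ℚ) jq
    rw [hx, coeffEmb, coeffEmb, coeffMap_coeffMap]
    exact coeffMap_congr (Subsingleton.elim _ _) jq
  have hHj : ι H = h4Bar N h4 := by
    apply Subtype.ext
    show coeffMap φ.toRingHom (H : LaurentSeries K₁) = h4S (AlgebraicClosure ℚ)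
    rw [hH, coeffMap_h4S]
  have hxe : x = Fermat.Agent.H54.jElt K₁ N := Fermat.Agent.H2.klbr_model_x_eq N K₁ x hx
  have hfin : FiniteDimensional K₁⟮x⟯ (ModelField K₁ N) := by
    rw [hxe]
    exact Fermat.Agent.H54.finiteDimensional_adjoin_jElt K₁ N
  -- `df = θ dH`
  have hθH : theta (H : LaurentSeries K₁) ≠ 0 := by
    rw [hH]
    exact derb_theta_h4S_ne_zero K₁
  have hD := derb_D_eq_of_theta (laurentBaseChange K₁ (modularFunctionFieldFull N)) x hfin
    H f θ (derb_transcendental_H N K₁ H hH) hθH hθ
  -- the places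
  obtain ⟨w, e', he', hw⟩ := Fermat.Agent.H2.klbr_place_above ι hι (jBar N)
    (Fermat.Agent.H17.ESD.jBar_transcendental N) (degreeStatement_holds N).2.1
    (Fermat.Agent.H2.placeOfIsPlace (K0 := K₁) V hV.1)
  have he'Z : (0 : ℤ) < (e' : ℤ) := by exact_mod_cast he'
  have hwj : 0 ≤ w.ord (jBar N) := by
    rw [← hxj, hw]
    exact mul_nonneg he'Z.le
      (ord_nonneg_of_mem (Fermat.Agent.H2.placeOfIsPlace (K0 := K₁) V hV.1) hV.2)
  have hwf : 0 ≤ w.ord (ι f) := by
    rw [hw]
    exact mul_nonneg he'Z.le
      (ord_nonneg_of_mem (Fermat.Agent.H2.placeOfIsPlace (K0 := K₁) V hV.1) hfV)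
  obtain ⟨a, ha⟩ := derb_exists_h4Bar_value N h4 w hwj
  obtain ⟨M, _, val, der, σ, m, der_add, der_mul, val_der, hm, der_const, hval⟩ :=
    derb_exists_valDiff N w hwj
  have hder : der (σ (ι f)) = σ (ι θ) * der (σ (ι H)) :=
    derb_der_eq_of_D_eq der der_add der_mul (σ.comp ι)
      (fun c => by
        show der (σ (ι (algebraMap K₁ (ModelField K₁ N) c))) = 0
        rw [hι]
        exact der_const _) f H θ hD
  have hθw : 0 ≤ w.ord (ι θ) :=
    derb_ord_nonneg_of_der_eq val der der_add val_der σ der_const w (derb_deg_one N w) m hm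
      hval (ι H) (ι f) (ι θ) a (by rw [hHj]; exact ha) hwf hder
  rw [hw] at hθw
  have hθv : 0 ≤ (Fermat.Agent.H2.placeOfIsPlace (K0 := K₁) V hV.1).ord θ := by
    by_contra hneg
    rw [not_le] at hneg
    have := mul_neg_of_pos_of_neg he'Z hneg
    omega
  exact mem_of_ord_nonneg (Fermat.Agent.H2.placeOfIsPlace (K0 := K₁) V hV.1) hθv

end main

end Fermat.Agent.H26.SS
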